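/-
MLT / L1 / Three / Fixed (helper4), part 1: **the leading term of the `q_K`-expansion of
`τ ↦ j(3 δ τ)`**, `δ ∈ SL(2,ℤ)`, `3 ∣ K`.

`(3 0; 0 1) δ = g (a b; 0 d)` with `a d = 3`: the expansion starts with `ζ⁻¹ q_K^{-e}`, `e d = K a`,
`ζ = exp(2πi b/d)`; so `e = 3K` (`a = 3`) or `e = K/3` (`a = 1`), and `a = 1` as soon as `3 ∤ δ₁₀`; in
that case the cube of the leading coefficient is `1`.
-/
import Mathlib
import Fermat.Agent.Lib.S24.JLaurent
import Fermat.Agent.Lib.S24.ModRing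
import Fermat.Agent.Lib.Igusa.ModPolyPhi

set_option autoImplicit false
set_option linter.unusedSectionVars false
set_option linter.unusedVariables false
set_option linter.style.haveILetI false

namespace Fermat.Agent.MLT

open Fermat.Agent.S24Lib Fermat.Agent.Igusa
open UpperHalfPlane Matrix MatrixGroups ModularCurve HahnSeries
open Fermat.Agent.S22Lib (intGL)
open Fermat.Agent.ES (IsQLaurentable qLaurent)

/-- `L = c q^{-e} + higher terms` -/
def Mlt3Lead (L : LaurentSeries ℂ) (e : ℤ) (c : ℂ) : Prop :=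
  (∀ m : ℤ, m < -e → L.coeff m = 0) ∧ L.coeff (-e) = c

theorem Mlt3Lead.order_eq {L : LaurentSeries ℂ} {e : ℤ} {c : ℂ} (h : Mlt3Lead L e c) (hc : c ≠ 0) :
    L.order = -e := by
  have hL0 : L ≠ 0 := by
    rintro rfl
    exact hc (by rw [← h.2]; rfl)
  apply le_antisymm
  · exact HahnSeries.order_le_of_coeff_ne_zero (by rw [h.2]; exact hc)
  · by_contra hlt
    push Not at hlt
    exact hL0 (HahnSeries.coeff_order_eq_zero.mp (h.1 _ hlt))

/-- the leading term of `j ∘ (a b; 0 d)` in `q_N` -/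
theorem mlt3_lead_upper (a b d : ℤ) (ha : 0 < a) (hd : 0 < d)
    (hdet : 0 < (!![a, b; 0, d] : Matrix (Fin 2) (Fin 2) ℤ).det)
    (N : ℕ) [NeZero N] (e : ℕ) (he : (e : ℤ) * d = N * a) :
    Mlt3Lead (qLaurent N (fun τ => jFun (intGL !![a, b; 0, d] hdet • τ))) e
      (Complex.exp (2 * Real.pi * Complex.I * b / d))⁻¹ := by
  have h := (qLaurent_jFun_comp_upper a b d ha hd hdet N e he).2
  have hepos : (0 : ℤ) < e := by
    have h1 : (0 : ℤ) < (e : ℤ) * d := by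
      rw [he]
      have : (0 : ℤ) < N := by exact_mod_cast Nat.pos_of_ne_zero (NeZero.ne N)
      positivity
    exact pos_of_mul_pos_left h1 hd.le
  constructor
  · intro m hm
    rw [h m]
    split_ifs with hdvd
    · obtain ⟨k, rfl⟩ := hdvd
      rw [Int.mul_ediv_cancel_left _ hepos.ne']
      have hk : k < -((1 : ℕ) : ℤ) := by
        by_contra hk
        push Not at hk
        have hk' : -((1 : ℕ) : ℤ) = -1 := by norm_num
        rw [hk'] at hk
        have : -(e : ℤ) ≤ e * k := by nlinarith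
        omega
      have h0 := coeff_jqModC_pow_of_lt (K := ℂ) (n := 1) hk
      rw [pow_one] at h0
      rw [h0, mul_zero]
    · rfl
  · rw [h (-(e : ℤ)), if_pos (Dvd.dvd.neg_right dvd_rfl)]
    have : -(e : ℤ) / e = -1 := by
      rw [Int.neg_ediv_of_dvd dvd_rfl, Int.ediv_self hepos.ne']
    rw [this, coeff_jqModC_neg_one, mul_one, _root_.zpow_neg_one]

/-- the Hermite form of `(3 0; 0 1) δ` -/
theorem mlt3_hermite (δ : SL(2, ℤ)) :
    ∃ (a b d : ℤ) (ha : 0 < a) (hd : 0 < d)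
      (hU : 0 < (!![a, b; 0, d] : Matrix (Fin 2) (Fin 2) ℤ).det),
      a * d = 3 ∧ (¬ (3 : ℤ) ∣ δ 1 0 → a = 1) ∧
      S24Lib.jGen 3 δ = jMat !![a, b; 0, d] hU := by
  have hA : 0 < (diagMat ((3 : ℕ+) : ℕ) * (δ : Matrix (Fin 2) (Fin 2) ℤ)).det :=
    det_diagMat_mul_pos 3 δ
  obtain ⟨g, a, b, d, ha, hd, hAeq⟩ := Fermat.Agent.S22Lib.exists_SL2Z_mul_eq_upper _ hA
  have hU : 0 < (!![a, b; 0, d] : Matrix (Fin 2) (Fin 2) ℤ).det := by
    rw [Fermat.Agent.S22Lib.upper_det]; exact mul_pos ha hd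
  have hdet : a * d = 3 := by
    have h1 : (diagMat ((3 : ℕ+) : ℕ) * (δ : Matrix (Fin 2) (Fin 2) ℤ)).det = 3 := by
      rw [Matrix.det_mul, diagMat_det, δ.det_coe, mul_one]
      rfl
    rw [hAeq, Matrix.det_mul, g.det_coe, one_mul, Fermat.Agent.S22Lib.upper_det] at h1
    exact h1
  refine ⟨a, b, d, ha, hd, hU, hdet, ?_, ?_⟩
  · intro h3
    -- `a` divides the first column of `(3 0; 0 1) δ`
    have e10 : (diagMat ((3 : ℕ+) : ℕ) * (δ : Matrix (Fin 2) (Fin 2) ℤ)) 1 0 = δ 1 0 := by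
      simp [diagMat, Matrix.mul_apply, Fin.sum_univ_two]
    have e10' : ((g : Matrix (Fin 2) (Fin 2) ℤ) * !![a, b; 0, d]) 1 0 = g 1 0 * a := by
      simp [Matrix.mul_apply, Fin.sum_univ_two]
    have hdvd : a ∣ δ 1 0 := by
      rw [← e10, hAeq, e10']
      exact Dvd.intro_left _ rfl
    have ha3 : a ∣ 3 := ⟨d, hdet.symm⟩
    have hale : a ≤ 3 := Int.le_of_dvd (by norm_num) ha3
    interval_cases a
    · rfl
    · omega
    · exact absurd hdvd h3
  · rw [S24Lib.jGen, jMat_congr hAeq hA (det_SL_mul_pos g hU), jMat_SL_mul]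

/-- **the leading term of the `q_K`-expansion of `j(3 δ τ)`**, `3 ∣ K` -/
theorem mlt3_lead_j3 (K : ℕ) [NeZero K] (h3K : 3 ∣ K) (δ : SL(2, ℤ)) :
    ∃ (e : ℕ) (c : ℂ), c ≠ 0 ∧ Mlt3Lead (qLaurent K (S24Lib.jGen 3 δ)) e c ∧
      (e = 3 * K ∨ e * 3 = K) ∧ (¬ (3 : ℤ) ∣ δ 1 0 → e * 3 = K ∧ c ^ 3 = 1) := by
  obtain ⟨a, b, d, ha, hd, hU, hdet, ha1, hj⟩ := mlt3_hermite δ
  obtain ⟨K', rfl⟩ := h3K
  have ha3 : a ∣ 3 := ⟨d, hdet.symm⟩
  have hale : a ≤ 3 := Int.le_of_dvd (by norm_num) ha3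
  have hc0 : (Complex.exp (2 * Real.pi * Complex.I * b / d))⁻¹ ≠ 0 :=
    inv_ne_zero (Complex.exp_ne_zero _)
  have hcases : (a = 1 ∧ d = 3) ∨ (a = 3 ∧ d = 1) := by
    interval_cases a
    · left; exact ⟨rfl, by omega⟩
    · omega
    · right; exact ⟨rfl, by omega⟩
  rcases hcases with ⟨rfl, rfl⟩ | ⟨rfl, rfl⟩
  · -- `a = 1`, `d = 3`
    have he : ((K' : ℕ) : ℤ) * 3 = ((3 * K' : ℕ) : ℤ) * 1 := by push_cast; ring
    have h := mlt3_lead_upper 1 b 3 ha hd hU (3 * K') K' he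
    refine ⟨K', _, hc0, ?_, Or.inr (by ring), fun _ => ⟨by ring, ?_⟩⟩
    · rw [hj]; exact h
    · rw [inv_pow, ← Complex.exp_nat_mul]
      have : ((3 : ℕ) : ℂ) * (2 * Real.pi * Complex.I * b / ((3 : ℤ) : ℂ))
          = (b : ℂ) * (2 * Real.pi * Complex.I) := by
        push_cast
        ring
      rw [this, Complex.exp_int_mul_two_pi_mul_I, inv_one]
  · -- `a = 3`, `d = 1`
    have he : ((3 * (3 * K') : ℕ) : ℤ) * 1 = ((3 * K' : ℕ) : ℤ) * 3 := by push_cast; ring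
    have h := mlt3_lead_upper 3 b 1 ha hd hU (3 * K') (3 * (3 * K')) he
    refine ⟨3 * (3 * K'), _, hc0, ?_, Or.inl rfl, fun h3 => ?_⟩
    · rw [hj]; exact h
    · have := ha1 h3
      omega

end Fermat.Agent.MLT
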