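/-
MLT / L1 / Three / Fixed (helper4), part 2: **the orders of `j`, `j₃ = j(3τ)` and `j - j₃³` at the cusp
places `modRep δ • inftyPlace` of `ModField 𝕜 K`**, `3 ∣ K`.
-/
import Mathlib
import Fermat.Agent.Lib.MLT.L1.Three.Fixed.QExp
import Fermat.Agent.Lib.T1.Dict.InftyOrd
import Fermat.Agent.Lib.T1.Dict.KMod.Iso

set_option autoImplicit false
set_option linter.unusedSectionVars false
set_option linter.unusedVariables false
set_option linter.style.haveILetI false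

namespace Fermat.Agent.MLT

open Fermat.Agent.S24Lib Fermat.Agent.T1 Fermat.Agent.T1.KMod
open UpperHalfPlane Matrix MatrixGroups ModularCurve HahnSeries AlgebraicCurve Fermat.Agent.Curve
open Fermat.Agent.ES (IsQLaurentable qLaurent)

/-! ### Leading terms of products and differences -/

theorem Mlt3Lead.mul {L L' : LaurentSeries ℂ} {e e' : ℤ} {c c' : ℂ} (h : Mlt3Lead L e c)
    (h' : Mlt3Lead L' e' c') (hc : c ≠ 0) (hc' : c' ≠ 0) :
    Mlt3Lead (L * L') (e + e') (c * c') := by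
  have ho := h.order_eq hc
  have ho' := h'.order_eq hc'
  have hl : L.leadingCoeff = c := by rw [HahnSeries.leadingCoeff_eq, ho, h.2]
  have hl' : L'.leadingCoeff = c' := by rw [HahnSeries.leadingCoeff_eq, ho', h'.2]
  have hne : L.leadingCoeff * L'.leadingCoeff ≠ 0 := by
    rw [hl, hl']; exact mul_ne_zero hc hc'
  have hom : (L * L').order = -(e + e') := by
    rw [HahnSeries.order_mul_of_ne_zero hne, ho, ho']
    ring
  constructor
  · intro m hm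
    apply HahnSeries.coeff_eq_zero_of_lt_order
    rw [hom]
    exact hm
  · have := HahnSeries.coeff_mul_order_add_order L L'
    rw [ho, ho', hl, hl'] at this
    rw [← this]
    congr 1
    ring

theorem Mlt3Lead.sub {L L' : LaurentSeries ℂ} {e : ℤ} {c c' : ℂ} (h : Mlt3Lead L e c)
    (h' : Mlt3Lead L' e c') : Mlt3Lead (L - L') e (c - c') :=
  ⟨fun m hm => by rw [HahnSeries.coeff_sub, h.1 m hm, h'.1 m hm, sub_zero],
    by rw [HahnSeries.coeff_sub, h.2, h'.2]⟩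

theorem Mlt3Lead.lt_order {L : LaurentSeries ℂ} {e : ℤ} (h : Mlt3Lead L e 0) (hL : L ≠ 0) :
    -e < L.order := by
  by_contra hle
  push Not at hle
  apply hL
  apply HahnSeries.coeff_order_eq_zero.mp
  rcases lt_or_eq_of_le hle with h1 | h1
  · exact h.1 _ h1
  · rw [h1]; exact h.2

theorem mlt3_lead_qExpand_j (K : ℕ) [NeZero K] :
    Mlt3Lead (qExpand ℂ K (jqModC ℂ)) K 1 := by
  have hK : (0 : ℤ) < K := by exact_mod_cast Nat.pos_of_ne_zero (NeZero.ne K)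
  constructor
  · intro m hm
    by_cases hd : (K : ℤ) ∣ m
    · obtain ⟨k, rfl⟩ := hd
      rw [qExpand_coeff_mul]
      have hk : k < -((1 : ℕ) : ℤ) := by
        have hk' : -((1 : ℕ) : ℤ) = -1 := by norm_num
        rw [hk']
        by_contra hk
        push Not at hk
        have : -(K : ℤ) ≤ K * k := by nlinarith
        omega
      have h0 := Fermat.Agent.Igusa.coeff_jqModC_pow_of_lt (K := ℂ) (n := 1) hk
      rwa [pow_one] at h0
    · exact qExpand_coeff_of_not_dvd K _ hd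
  · have : -(K : ℤ) = (K : ℤ) * (-1) := by ring
    rw [this, qExpand_coeff_mul]
    exact Fermat.Agent.Igusa.coeff_jqModC_neg_one ℂ

section Ord

attribute [local instance] charZero_k

variable (𝕜 : Type) [Field 𝕜] [IsAlgClosed 𝕜] [Algebra 𝕜 ℂ] [Algebra ℚ 𝕜] (K : ℕ) [NeZero K]
  (h3K : ((3 : ℕ+) : ℕ) ∣ K)

/-- `j₃ = j(3τ)` in `ModField 𝕜 K` -/
noncomputable def mlt3J3L : ModField 𝕜 K := jGenL 𝕜 K h3K 1

theorem mlt3_modFieldQL_jL : modFieldQL 𝕜 K (jL 𝕜 K) = qExpand ℂ K (jqModC ℂ) := by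
  rw [KMod.jL, modFieldQL_algebraMap 𝕜, modRingQL_jR 𝕜]

theorem mlt3_modFieldQL_j3L (δ : SL(2, ℤ)) :
    modFieldQL 𝕜 K (modRep 𝕜 K δ⁻¹ (mlt3J3L 𝕜 K h3K)) = qLaurent K (S24Lib.jGen 3 δ) := by
  rw [mlt3J3L, KMod.modRep_jGenL, inv_inv, one_mul, KMod.jGenL, modFieldQL_algebraMap 𝕜]
  rfl

theorem mlt3_jL_ne_zero : jL 𝕜 K ≠ 0 := jL_ne_zero 𝕜 K

theorem mlt3_j3L_ne_zero : mlt3J3L 𝕜 K h3K ≠ 0 := by
  intro h
  have h1 := mlt3_modFieldQL_j3L 𝕜 K h3K 1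
  rw [h, map_zero, map_zero] at h1
  obtain ⟨e, c, hc, hL, -, -⟩ := mlt3_lead_j3 K h3K 1
  rw [← h1] at hL
  exact hc (by rw [← hL.2]; rfl)

/-- `ord j = -K` at every cusp place -/
theorem mlt3_cusp_ord_jL (δ : SL(2, ℤ)) :
    (modRep 𝕜 K δ • inftyPlace 𝕜 K).ord (jL 𝕜 K) = -(K : ℤ) := by
  rw [smul_inftyPlace_ord 𝕜 K δ _ (jL_ne_zero 𝕜 K), KMod.modRep_jL, mlt3_modFieldQL_jL]
  exact (mlt3_lead_qExpand_j K).order_eq one_ne_zero

/-- `ord j₃ ∈ {-3K, -K/3}` at every cusp place, `= -K/3` if `3 ∤ δ₁₀` -/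
theorem mlt3_cusp_ord_j3L (δ : SL(2, ℤ)) :
    ∃ e : ℕ, (modRep 𝕜 K δ • inftyPlace 𝕜 K).ord (mlt3J3L 𝕜 K h3K) = -(e : ℤ) ∧
      (e = 3 * K ∨ e * 3 = K) ∧ (¬ (3 : ℤ) ∣ δ 1 0 → e * 3 = K) := by
  obtain ⟨e, c, hc, hL, hcases, h3⟩ := mlt3_lead_j3 K h3K δ
  refine ⟨e, ?_, hcases, fun h => (h3 h).1⟩
  rw [smul_inftyPlace_ord 𝕜 K δ _ (mlt3_j3L_ne_zero 𝕜 K h3K), mlt3_modFieldQL_j3L]
  exact hL.order_eq hc

/-- `j - j₃³` has order `> -K` at the cusp places with `3 ∤ δ₁₀` (if it is not zero) -/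
theorem mlt3_cusp_ord_sub (δ : SL(2, ℤ)) (h3 : ¬ (3 : ℤ) ∣ δ 1 0)
    (hne : jL 𝕜 K - mlt3J3L 𝕜 K h3K ^ 3 ≠ 0) :
    -(K : ℤ) < (modRep 𝕜 K δ • inftyPlace 𝕜 K).ord (jL 𝕜 K - mlt3J3L 𝕜 K h3K ^ 3) := by
  obtain ⟨e, c, hc, hL, -, h3'⟩ := mlt3_lead_j3 K h3K δ
  obtain ⟨he, hc3⟩ := h3' h3
  rw [smul_inftyPlace_ord 𝕜 K δ _ hne, map_sub, map_pow, map_sub, map_pow, KMod.modRep_jL,
    mlt3_modFieldQL_jL, mlt3_modFieldQL_j3L]
  have hL3 : Mlt3Lead (qLaurent K (S24Lib.jGen 3 δ) ^ 3) K 1 := by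
    have h2 := (hL.mul hL hc hc).mul hL (mul_ne_zero hc hc) hc
    have e1 : ((e : ℤ) + e + e) = K := by
      have : ((e * 3 : ℕ) : ℤ) = K := by rw [he]
      push_cast at this
      linarith
    have e2 : c * c * c = 1 := by rw [← hc3]; ring
    rw [e1, e2] at h2
    have e3 : qLaurent K (S24Lib.jGen 3 δ) ^ 3
        = qLaurent K (S24Lib.jGen 3 δ) * qLaurent K (S24Lib.jGen 3 δ)
          * qLaurent K (S24Lib.jGen 3 δ) := by ring
    rw [e3]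
    exact h2
  have hsub := (mlt3_lead_qExpand_j K).sub hL3
  rw [sub_self] at hsub
  refine hsub.lt_order ?_
  intro h0
  apply hne
  have h1 : modFieldQL 𝕜 K (modRep 𝕜 K δ⁻¹ (jL 𝕜 K - mlt3J3L 𝕜 K h3K ^ 3)) = 0 := by
    rw [map_sub, map_pow, map_sub, map_pow, KMod.modRep_jL, mlt3_modFieldQL_jL, mlt3_modFieldQL_j3L]
    exact h0
  have h2 := (modFieldQL_injective 𝕜 K) (h1.trans (map_zero _).symm)
  exact (modRep 𝕜 K δ⁻¹).injective (h2.trans (map_zero _).symm)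

end Ord

end Fermat.Agent.MLT
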