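/-
MLT / L1 / Three / Fixed (helper4), part 3: **a place of `ModField 𝕜 K`, `K = 9 N''`, fixed by an element
of `Γ₀(3N'') ∖ Γ₀(9N'')` is a cusp place `modRep δ • inftyPlace` with `3 ∤ δ₁₀`**, if `N''` has a prime
divisor `r0 ≡ 2 mod 3`.

The stabiliser of a place is the image of a conjugate of `⟨T⟩` (cusps), `⟨S⟩` (`j = 1728`), `⟨ST⟩`
(`j = 0`) or trivial; an elliptic element of order `4` (trace `0`) does not lie in `Γ₀(3)`, an elliptic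
element of order `3` or `6` (trace `±1`) does not lie in `Γ₀(r0)`; and `δ T^n δ⁻¹ ∈ Γ₀(3N'') ∖ Γ₀(9N'')`
forces `3 ∤ δ₁₀`.
-/
import Mathlib
import Fermat.Agent.Lib.MLT.L1.Three.GTilde
import Fermat.Agent.Lib.T1.Dict.DictBwd

set_option autoImplicit false
set_option linter.unusedSectionVars false
set_option linter.unusedVariables false
set_option linter.style.haveILetI false

namespace Fermat.Agent.MLT

open Fermat.Agent.S24Lib Fermat.Agent.T1 Fermat.Agent.T1.KMod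
open UpperHalfPlane Matrix MatrixGroups CongruenceSubgroup ModularGroup AlgebraicCurve
  Fermat.Agent.Curve

/-! ### Arithmetic of `2 × 2` matrices -/

theorem mlt3_det_eq (γ : SL(2, ℤ)) : γ 0 0 * γ 1 1 - γ 0 1 * γ 1 0 = 1 := by
  have := γ.det_coe
  rw [Matrix.det_fin_two] at this
  exact this

theorem mlt3_mul_entry (A B : Matrix (Fin 2) (Fin 2) ℤ) (i j : Fin 2) :
    (A * B) i j = A i 0 * B 0 j + A i 1 * B 1 j := by
  rw [Matrix.mul_apply, Fin.sum_univ_two]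

theorem mlt3_inv_entries (δ : SL(2, ℤ)) :
    (δ⁻¹ : SL(2, ℤ)) 0 0 = δ 1 1 ∧ (δ⁻¹ : SL(2, ℤ)) 0 1 = -δ 0 1 ∧
      (δ⁻¹ : SL(2, ℤ)) 1 0 = -δ 1 0 ∧ (δ⁻¹ : SL(2, ℤ)) 1 1 = δ 0 0 := by
  have h : ((δ⁻¹ : SL(2, ℤ)) : Matrix (Fin 2) (Fin 2) ℤ)
      = !![δ 1 1, -δ 0 1; -δ 1 0, δ 0 0] := by
    rw [Matrix.SpecialLinearGroup.coe_inv, Matrix.adjugate_fin_two]
  refine ⟨?_, ?_, ?_, ?_⟩
  · show ((δ⁻¹ : SL(2, ℤ)) : Matrix (Fin 2) (Fin 2) ℤ) 0 0 = _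
    rw [h]; rfl
  · show ((δ⁻¹ : SL(2, ℤ)) : Matrix (Fin 2) (Fin 2) ℤ) 0 1 = _
    rw [h]; rfl
  · show ((δ⁻¹ : SL(2, ℤ)) : Matrix (Fin 2) (Fin 2) ℤ) 1 0 = _
    rw [h]; rfl
  · show ((δ⁻¹ : SL(2, ℤ)) : Matrix (Fin 2) (Fin 2) ℤ) 1 1 = _
    rw [h]; rfl

/-- the entries of a conjugate `δ t δ⁻¹` -/
theorem mlt3_conj_entries (δ t : SL(2, ℤ)) :
    (δ * t * δ⁻¹) 1 0 = (δ 1 0 * t 0 0 + δ 1 1 * t 1 0) * δ 1 1
        - (δ 1 0 * t 0 1 + δ 1 1 * t 1 1) * δ 1 0 ∧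
    (δ * t * δ⁻¹) 0 0 + (δ * t * δ⁻¹) 1 1 = t 0 0 + t 1 1 := by
  obtain ⟨i00, i01, i10, i11⟩ := mlt3_inv_entries δ
  have hd := mlt3_det_eq δ
  have e : ∀ i j : Fin 2, (δ * t * δ⁻¹) i j
      = ((δ : Matrix (Fin 2) (Fin 2) ℤ) * (t : Matrix (Fin 2) (Fin 2) ℤ)
          * ((δ⁻¹ : SL(2, ℤ)) : Matrix (Fin 2) (Fin 2) ℤ)) i j := by
    intro i j
    rw [← Matrix.SpecialLinearGroup.coe_mul, ← Matrix.SpecialLinearGroup.coe_mul]
  constructor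
  · rw [e, mlt3_mul_entry, mlt3_mul_entry, mlt3_mul_entry]
    show (δ 1 0 * t 0 0 + δ 1 1 * t 1 0) * (δ⁻¹ : SL(2, ℤ)) 0 0
      + (δ 1 0 * t 0 1 + δ 1 1 * t 1 1) * (δ⁻¹ : SL(2, ℤ)) 1 0 = _
    rw [i00, i10]
    ring
  · rw [e, e, mlt3_mul_entry, mlt3_mul_entry, mlt3_mul_entry, mlt3_mul_entry, mlt3_mul_entry,
      mlt3_mul_entry]
    show (δ 0 0 * t 0 0 + δ 0 1 * t 1 0) * (δ⁻¹ : SL(2, ℤ)) 0 0
      + (δ 0 0 * t 0 1 + δ 0 1 * t 1 1) * (δ⁻¹ : SL(2, ℤ)) 1 0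
      + ((δ 1 0 * t 0 0 + δ 1 1 * t 1 0) * (δ⁻¹ : SL(2, ℤ)) 0 1
      + (δ 1 0 * t 0 1 + δ 1 1 * t 1 1) * (δ⁻¹ : SL(2, ℤ)) 1 1) = _
    rw [i00, i10, i01, i11]
    linear_combination (t 0 0 + t 1 1) * hd

/-- an element of trace `0` does not lie in `Γ₀(3)` -/
theorem mlt3_no_trace_zero (γ : SL(2, ℤ)) (h3 : (3 : ℤ) ∣ γ 1 0) : γ 0 0 + γ 1 1 ≠ 0 := by
  intro h0
  have hd := mlt3_det_eq γ
  obtain ⟨c, hc⟩ := h3
  have h1 : γ 1 1 = -γ 0 0 := by linarith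
  rw [h1, hc] at hd
  have h2 : γ 0 0 * γ 0 0 % 3 = 2 := by
    have : γ 0 0 * γ 0 0 = -1 - 3 * (γ 0 1 * c) := by linarith
    rw [this]
    omega
  have ha0 : 0 ≤ γ 0 0 % 3 := Int.emod_nonneg _ (by norm_num)
  have ha3 : γ 0 0 % 3 < 3 := Int.emod_lt_of_pos _ (by norm_num)
  have h3' : (γ 0 0 % 3) * (γ 0 0 % 3) % 3 = 2 := by
    rw [← Int.mul_emod]; exact h2
  interval_cases (γ 0 0 % 3) <;> omega

/-- `x² + x + 1` has no root modulo a prime `r0 ≡ 2 mod 3` -/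
theorem mlt3_no_root (r0 : ℕ) (hr0 : r0.Prime) (hr3 : r0 % 3 = 2) (y : ZMod r0)
    (hy : y ^ 2 + y + 1 = 0) : False := by
  haveI : Fact r0.Prime := ⟨hr0⟩
  have hy3 : y ^ 3 = 1 := by linear_combination (y - 1) * hy
  have hy1 : y ≠ 1 := by
    rintro rfl
    have h3 : ((3 : ℕ) : ZMod r0) = 0 := by
      have : (1 : ZMod r0) ^ 2 + 1 + 1 = 0 := hy
      push_cast
      linear_combination this
    have := (ZMod.natCast_eq_zero_iff 3 r0).mp h3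
    have := (Nat.prime_dvd_prime_iff_eq hr0 Nat.prime_three).mp this
    omega
  have hy0 : y ≠ 0 := by
    rintro rfl
    simp at hy3
  have hord : orderOf y = 3 := orderOf_eq_prime hy3 hy1
  have hdvd : orderOf y ∣ r0 - 1 := ZMod.orderOf_dvd_card_sub_one hy0
  rw [hord] at hdvd
  have hpos := hr0.pos
  omega

/-- an element of trace `±1` does not lie in `Γ₀(r0)`, `r0 ≡ 2 mod 3` -/
theorem mlt3_no_trace_one (r0 : ℕ) (hr0 : r0.Prime) (hr3 : r0 % 3 = 2) (γ : SL(2, ℤ))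
    (hγ : (r0 : ℤ) ∣ γ 1 0) : γ 0 0 + γ 1 1 ≠ 1 ∧ γ 0 0 + γ 1 1 ≠ -1 := by
  have hd := mlt3_det_eq γ
  have hc : ((γ 1 0 : ℤ) : ZMod r0) = 0 := (ZMod.intCast_zmod_eq_zero_iff_dvd _ _).mpr hγ
  have hdz : ((γ 0 0 : ℤ) : ZMod r0) * ((γ 1 1 : ℤ) : ZMod r0) = 1 := by
    have := congrArg (Int.cast : ℤ → ZMod r0) hd
    push_cast at this
    rw [hc, mul_zero, sub_zero] at this
    exact this
  constructor
  · intro h1
    have h2 : ((γ 1 1 : ℤ) : ZMod r0) = 1 - ((γ 0 0 : ℤ) : ZMod r0) := by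
      have := congrArg (Int.cast : ℤ → ZMod r0) h1
      push_cast at this
      linear_combination this
    rw [h2] at hdz
    exact mlt3_no_root r0 hr0 hr3 (-((γ 0 0 : ℤ) : ZMod r0)) (by linear_combination -hdz)
  · intro h1
    have h2 : ((γ 1 1 : ℤ) : ZMod r0) = -1 - ((γ 0 0 : ℤ) : ZMod r0) := by
      have := congrArg (Int.cast : ℤ → ZMod r0) h1
      push_cast at this
      linear_combination this
    rw [h2] at hdz
    exact mlt3_no_root r0 hr0 hr3 (((γ 0 0 : ℤ) : ZMod r0)) (by linear_combination -hdz)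

theorem mlt3_S_sq : (S : SL(2, ℤ)) ^ 2 = -1 := by
  ext i j
  fin_cases i <;> fin_cases j <;> simp [pow_two, ModularGroup.coe_S, Matrix.mul_apply, Fin.sum_univ_two]

theorem mlt3_ST_cube : ((S : SL(2, ℤ)) * T) ^ 3 = -1 := by
  ext i j
  fin_cases i <;> fin_cases j <;> simp [pow_succ, ModularGroup.coe_S, ModularGroup.coe_T, Matrix.mul_apply, Fin.sum_univ_two]

theorem mlt3_neg_one_zpow (q : ℤ) : ((-1 : SL(2, ℤ)) ^ q = 1) ∨ ((-1 : SL(2, ℤ)) ^ q = -1) := by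
  rcases Int.even_or_odd q with h | h
  · left
    exact Even.neg_one_zpow h
  · right
    exact Odd.neg_one_zpow h

theorem mlt3_neg_entry (A : SL(2, ℤ)) (i j : Fin 2) : (-A) i j = -(A i j) := by
  show ((-A : SL(2, ℤ)) : Matrix (Fin 2) (Fin 2) ℤ) i j = _
  rw [Matrix.SpecialLinearGroup.coe_neg]
  rfl

/-- the powers of `S` are `± 1` or have trace `0` -/
theorem mlt3_S_zpow_cases (m : ℤ) :
    ((S : SL(2, ℤ)) ^ m = 1 ∨ (S : SL(2, ℤ)) ^ m = -1) ∨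
      ((S : SL(2, ℤ)) ^ m) 0 0 + ((S : SL(2, ℤ)) ^ m) 1 1 = 0 := by
  have hm : m = 2 * (m / 2) + m % 2 := (Int.mul_ediv_add_emod m 2).symm
  have h0 : 0 ≤ m % 2 := Int.emod_nonneg _ (by norm_num)
  have h2 : m % 2 < 2 := Int.emod_lt_of_pos _ (by norm_num)
  have hS : (S : SL(2, ℤ)) ^ m = (-1 : SL(2, ℤ)) ^ (m / 2) * S ^ (m % 2) := by
    conv_lhs => rw [hm]
    rw [_root_.zpow_add, _root_.zpow_mul, ← mlt3_S_sq]
    rfl
  rw [hS]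
  have hr : m % 2 = 0 ∨ m % 2 = 1 := by omega
  rcases hr with hr | hr
  · left
    rw [hr, zpow_zero, mul_one]
    exact mlt3_neg_one_zpow _
  · right
    rw [hr, zpow_one]
    rcases mlt3_neg_one_zpow (m / 2) with h | h
    · rw [h, one_mul]
      simp [ModularGroup.coe_S]
    · rw [h, neg_one_mul, mlt3_neg_entry, mlt3_neg_entry]
      simp [ModularGroup.coe_S]

/-- the powers of `S T` are `± 1` or have trace `± 1` -/
theorem mlt3_ST_zpow_cases (m : ℤ) :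
    (((S : SL(2, ℤ)) * T) ^ m = 1 ∨ ((S : SL(2, ℤ)) * T) ^ m = -1) ∨
      ((((S : SL(2, ℤ)) * T) ^ m) 0 0 + (((S : SL(2, ℤ)) * T) ^ m) 1 1 = 1 ∨
        (((S : SL(2, ℤ)) * T) ^ m) 0 0 + (((S : SL(2, ℤ)) * T) ^ m) 1 1 = -1) := by
  have hm : m = 3 * (m / 3) + m % 3 := (Int.mul_ediv_add_emod m 3).symm
  have h0 : 0 ≤ m % 3 := Int.emod_nonneg _ (by norm_num)
  have h2 : m % 3 < 3 := Int.emod_lt_of_pos _ (by norm_num)
  have hS : ((S : SL(2, ℤ)) * T) ^ m = (-1 : SL(2, ℤ)) ^ (m / 3) * (S * T) ^ (m % 3) := by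
    conv_lhs => rw [hm]
    rw [_root_.zpow_add, _root_.zpow_mul, ← mlt3_ST_cube]
    rfl
  rw [hS]
  have hr : m % 3 = 0 ∨ m % 3 = 1 ∨ m % 3 = 2 := by omega
  have e1 : ((S : SL(2, ℤ)) * T) 0 0 + ((S : SL(2, ℤ)) * T) 1 1 = 1 := by
    simp [ModularGroup.coe_S, ModularGroup.coe_T, Matrix.mul_apply, Fin.sum_univ_two]
  have e2 : (((S : SL(2, ℤ)) * T) ^ (2 : ℤ)) 0 0 + (((S : SL(2, ℤ)) * T) ^ (2 : ℤ)) 1 1 = -1 := by
    rw [zpow_ofNat]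
    simp [pow_two, ModularGroup.coe_S, ModularGroup.coe_T, Matrix.mul_apply, Fin.sum_univ_two]
  rcases hr with hr | hr | hr
  · left
    rw [hr, zpow_zero, mul_one]
    exact mlt3_neg_one_zpow _
  · right
    rw [hr, zpow_one]
    rcases mlt3_neg_one_zpow (m / 3) with h | h
    · rw [h, one_mul]
      exact Or.inl e1
    · rw [h, neg_one_mul, mlt3_neg_entry, mlt3_neg_entry]
      right
      linarith
  · right
    rw [hr]
    rcases mlt3_neg_one_zpow (m / 3) with h | h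
    · rw [h, one_mul]
      exact Or.inr e2
    · rw [h, neg_one_mul, mlt3_neg_entry, mlt3_neg_entry]
      left
      linarith


/-! ### The classification -/

section Main

attribute [local instance] charZero_k

variable (𝕜 : Type) [Field 𝕜] [IsAlgClosed 𝕜] [Algebra 𝕜 ℂ] (N'' : ℕ) [NeZero N'']

/-- transfer of a stabiliser relation: `modRep γ₁` fixes `modRep δ • w`, the stabiliser of `w` is the
image of the subgroup `H`; then `γ₁ = δ t δ⁻¹ κ` with `t ∈ H` and `κ ∈ Γ₀(K)` -/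
theorem mlt3_stab_transfer (K : ℕ) [NeZero K] (w : Place 𝕜 (ModField 𝕜 K)) (H : Subgroup SL(2, ℤ))
    (hw : ∀ γ : SL(2, ℤ), modRep 𝕜 K γ • w = w → ∃ t ∈ H, modRep 𝕜 K γ = modRep 𝕜 K t)
    (γ₁ δ : SL(2, ℤ)) (hfix : modRep 𝕜 K γ₁ • (modRep 𝕜 K δ • w) = modRep 𝕜 K δ • w) :
    ∃ t ∈ H, (δ * t * δ⁻¹)⁻¹ * γ₁ ∈ Gamma0 K := by
  have h1 : modRep 𝕜 K (δ⁻¹ * γ₁ * δ) • w = w := by
    rw [map_mul, map_mul, mul_smul, mul_smul, hfix, ← mul_smul, ← map_mul, inv_mul_cancel, map_one,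
      one_smul]
  obtain ⟨t, ht, hγt⟩ := hw _ h1
  refine ⟨t, ht, ?_⟩
  apply ker_modRep_le_Gamma0 𝕜 K
  rw [MonoidHom.mem_ker, map_mul, map_inv, map_mul, map_mul, ← hγt, map_mul, map_mul, map_inv]
  group

/-- **a place of `ModField 𝕜 (9 N'')` fixed by an element of `Γ₀(3N'') ∖ Γ₀(9N'')` is a cusp
`δ ∞` with `3 ∤ δ₁₀`** -/
theorem mlt3_fixed_is_cusp (hcop : Nat.Coprime 3 N'') (r0 : ℕ) (hr0 : r0.Prime) (hr3 : r0 % 3 = 2)
    (hr0N : r0 ∣ N'') (v : Place 𝕜 (ModField 𝕜 (N'' * 3 * 3))) (γ₁ : SL(2, ℤ))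
    (hγ₁ : γ₁ ∈ Gamma0 (N'' * 3)) (hγ₁' : γ₁ ∉ Gamma0 (N'' * 3 * 3))
    (hfix : modRep 𝕜 (N'' * 3 * 3) γ₁ • v = v) :
    ∃ δ : SL(2, ℤ), ¬ (3 : ℤ) ∣ δ 1 0 ∧ v = modRep 𝕜 (N'' * 3 * 3) δ • inftyPlace 𝕜 (N'' * 3 * 3) := by
  have hle : Gamma0 (N'' * 3 * 3) ≤ Gamma0 (N'' * 3) := Gamma0_le_of_dvd (Dvd.intro 3 rfl)
  -- the common part: `ε = δ t δ⁻¹ ∈ Γ₀(3N'') ∖ Γ₀(9N'')`
  have key : ∀ ε : SL(2, ℤ), ε⁻¹ * γ₁ ∈ Gamma0 (N'' * 3 * 3) →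
      ε ∈ Gamma0 (N'' * 3) ∧ ε ∉ Gamma0 (N'' * 3 * 3) := by
    intro ε hε
    have h1 : ε = γ₁ * (ε⁻¹ * γ₁)⁻¹ := by group
    constructor
    · rw [h1]
      exact mul_mem hγ₁ (inv_mem (hle hε))
    · intro h2
      apply hγ₁'
      have h3 : γ₁ = ε * (ε⁻¹ * γ₁) := by group
      rw [h3]
      exact mul_mem h2 hε
  rcases place_cases 𝕜 (N'' * 3 * 3) v with ⟨δ, hv⟩ | ⟨a, τ₀, ha, δ, ha0, ha1, hv⟩
  · -- cusps
    refine ⟨δ, ?_, hv⟩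
    intro h3
    rw [hv] at hfix
    obtain ⟨t, ht, hε⟩ := mlt3_stab_transfer 𝕜 (N'' * 3 * 3) (inftyPlace 𝕜 (N'' * 3 * 3))
      (Subgroup.zpowers T) (fun γ hγ => (inftyPlace_stabilizer 𝕜 (N'' * 3 * 3) γ).mp hγ) γ₁ δ hfix
    obtain ⟨h1, h2⟩ := key _ hε
    obtain ⟨n, rfl⟩ := Subgroup.mem_zpowers_iff.mp ht
    apply h2
    rw [mlt3_mem_Gamma0_iff] at h1 ⊢
    rw [(mlt3_conj_entries δ (T ^ n)).1] at h1 ⊢
    have e00 : ((T : SL(2, ℤ)) ^ n) 0 0 = 1 := by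
      show ((T ^ n : SL(2, ℤ)) : Matrix (Fin 2) (Fin 2) ℤ) 0 0 = 1
      rw [ModularGroup.coe_T_zpow]; rfl
    have e01 : ((T : SL(2, ℤ)) ^ n) 0 1 = n := by
      show ((T ^ n : SL(2, ℤ)) : Matrix (Fin 2) (Fin 2) ℤ) 0 1 = n
      rw [ModularGroup.coe_T_zpow]; rfl
    have e10 : ((T : SL(2, ℤ)) ^ n) 1 0 = 0 := by
      show ((T ^ n : SL(2, ℤ)) : Matrix (Fin 2) (Fin 2) ℤ) 1 0 = 0
      rw [ModularGroup.coe_T_zpow]; rfl
    have e11 : ((T : SL(2, ℤ)) ^ n) 1 1 = 1 := by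
      show ((T ^ n : SL(2, ℤ)) : Matrix (Fin 2) (Fin 2) ℤ) 1 1 = 1
      rw [ModularGroup.coe_T_zpow]; rfl
    rw [e00, e01, e10, e11] at h1 ⊢
    have hval : (δ 1 0 * 1 + δ 1 1 * 0) * δ 1 1 - (δ 1 0 * n + δ 1 1 * 1) * δ 1 0
        = -(n * (δ 1 0 * δ 1 0)) := by ring
    rw [hval] at h1 ⊢
    rw [dvd_neg] at h1 ⊢
    -- `N'' ∣ n δ₁₀²` and `9 ∣ δ₁₀²`, coprime
    have hN : ((N'' : ℕ) : ℤ) ∣ n * (δ 1 0 * δ 1 0) :=
      Dvd.dvd.trans (by push_cast; exact Dvd.intro _ rfl) h1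
    have h9 : ((9 : ℕ) : ℤ) ∣ n * (δ 1 0 * δ 1 0) := by
      obtain ⟨c, hc⟩ := h3
      rw [hc]
      exact ⟨n * c * c, by push_cast; ring⟩
    have hcop9 : IsCoprime ((N'' : ℕ) : ℤ) ((9 : ℕ) : ℤ) := by
      rw [Int.isCoprime_iff_gcd_eq_one, Int.gcd_natCast_natCast]
      have : Nat.Coprime N'' 9 := by
        have h33 : (9 : ℕ) = 3 ^ 2 := by norm_num
        rw [h33]
        exact (Nat.Coprime.pow_right 2 hcop.symm)
      exact this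
    have := hcop9.mul_dvd hN h9
    have hcast : ((N'' * 3 * 3 : ℕ) : ℤ) = ((N'' : ℕ) : ℤ) * ((9 : ℕ) : ℤ) := by push_cast; ring
    rw [hcast]
    exact this
  · -- points
    exfalso
    rw [hv] at hfix
    have h3dvd : ∀ ε : SL(2, ℤ), ε ∈ Gamma0 (N'' * 3) → (3 : ℤ) ∣ ε 1 0 := by
      intro ε hε
      rw [mlt3_mem_Gamma0_iff] at hε
      exact Dvd.dvd.trans (by push_cast; exact Dvd.intro_left _ rfl) hε
    have hrdvd : ∀ ε : SL(2, ℤ), ε ∈ Gamma0 (N'' * 3) → (r0 : ℤ) ∣ ε 1 0 := by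
      intro ε hε
      rw [mlt3_mem_Gamma0_iff] at hε
      refine Dvd.dvd.trans ?_ hε
      obtain ⟨c, hc⟩ := hr0N
      exact ⟨c * 3, by rw [hc]; push_cast; ring⟩
    have hpm : ∀ t : SL(2, ℤ), (t = 1 ∨ t = -1) →
        (δ * t * δ⁻¹)⁻¹ * γ₁ ∈ Gamma0 (N'' * 3 * 3) → False := by
      intro t ht hε
      obtain ⟨-, h2⟩ := key _ hε
      apply h2
      rcases ht with rfl | rfl
      · rw [mul_one, mul_inv_cancel]
        exact one_mem _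
      · have : δ * -1 * δ⁻¹ = -1 := by
          rw [mul_neg, mul_one, neg_mul, mul_inv_cancel]
        rw [this, mlt3_mem_Gamma0_iff, mlt3_neg_entry]
        simp
    by_cases h0 : a = 0
    · subst h0
      have hτ := ha0 rfl
      subst hτ
      obtain ⟨t, ht, hε⟩ := mlt3_stab_transfer 𝕜 (N'' * 3 * 3) _
        (Subgroup.zpowers (S * T)) (fun γ hγ => (rho_stabilizer 𝕜 (N'' * 3 * 3) γ).mp hγ) γ₁ δ hfix
      obtain ⟨m, rfl⟩ := Subgroup.mem_zpowers_iff.mp ht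
      obtain ⟨h1, h2⟩ := key _ hε
      rcases mlt3_ST_zpow_cases m with hm | hm
      · exact hpm _ hm hε
      · have htr := (mlt3_conj_entries δ ((S * T) ^ m)).2
        have := mlt3_no_trace_one r0 hr0 hr3 _ (hrdvd _ h1)
        rw [htr] at this
        rcases hm with hm | hm
        · exact this.1 hm
        · exact this.2 hm
    · by_cases h1728 : a = 1728
      · subst h1728
        have hτ := ha1 rfl
        subst hτ
        obtain ⟨t, ht, hε⟩ := mlt3_stab_transfer 𝕜 (N'' * 3 * 3) _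
          (Subgroup.zpowers S) (fun γ hγ => (I_stabilizer 𝕜 (N'' * 3 * 3) γ).mp hγ) γ₁ δ hfix
        obtain ⟨m, rfl⟩ := Subgroup.mem_zpowers_iff.mp ht
        obtain ⟨h1, h2⟩ := key _ hε
        rcases mlt3_S_zpow_cases m with hm | hm
        · exact hpm _ hm hε
        · have htr := (mlt3_conj_entries δ (S ^ m)).2
          have := mlt3_no_trace_zero _ (h3dvd _ h1)
          rw [htr] at this
          exact this hm
      · obtain ⟨t, ht, hε⟩ := mlt3_stab_transfer 𝕜 (N'' * 3 * 3) _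
          (⊥ : Subgroup SL(2, ℤ))
          (fun γ hγ => (generic_stabilizer 𝕜 (N'' * 3 * 3) τ₀ a ha h0 h1728 γ).mp hγ) γ₁ δ hfix
        rw [Subgroup.mem_bot] at ht
        exact hpm t (Or.inl ht) hε

end Main

end Fermat.Agent.MLT
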