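/-
MLT / L1 / Three / Fixed (helper4), part 4: **the `g̃`-fixed places of `F_K`, `K = 9 N''`, and the
functions `G = j₃ / j³`, `H = j / j₃³` there**.

* `mlt3_barPlace_smul` : `barPlace (modRep γ • v) = mlt3Aut γ • barPlace v`;
* `mlt3_fixed_place` : a `g̃`-fixed place is `barPlace (modRep δ • ∞)` with `3 ∤ δ₁₀`;
* at these places `ord j < 0`, `ord G > 0`, `ord (H - 1) > 0`;
* at every place: a pole of `G` is a zero of `j`, a pole of `H` is a zero of `j₃`.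
-/
import Mathlib
import Fermat.Agent.Lib.MLT.L1.Three.Fixed.CuspOrd
import Fermat.Agent.Lib.MLT.L1.Three.Fixed.Stab

set_option autoImplicit false
set_option linter.unusedSectionVars false
set_option linter.unusedVariables false
set_option linter.style.haveILetI false

namespace Fermat.Agent.MLT

open Fermat.Agent.S24Lib Fermat.Agent.T1 Fermat.Agent.T1.KMod Fermat.Agent.T2
open UpperHalfPlane Matrix MatrixGroups CongruenceSubgroup ModularGroup AlgebraicCurve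
  Fermat.Agent.Curve Fermat.Agent.Curve.PlaceAux ModularCurve

attribute [local instance] charZero_k

section Gen

variable (𝕜 : Type) [Field 𝕜] [IsAlgClosed 𝕜] [Algebra 𝕜 ℂ] [Algebra ℚ 𝕜] (K : ℕ) [NeZero K]

/-- the order at `σ • v` -/
theorem mlt3_ord_smul_eq {F : Type*} [Field F] [Algebra 𝕜 F] (σ : F ≃ₐ[𝕜] F) (v : Place 𝕜 F)
    (f : F) : (σ • v).ord f = v.ord (σ.symm f) := by
  have h := Place.ord_smul σ v (σ.symm f)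
  rwa [AlgEquiv.apply_symm_apply] at h

/-- the elements of `modRing` are regular at the point places -/
theorem mlt3_ring_ord_nonneg (γ : SL(2, ℤ)) (τ₀ : ℍ) (a : 𝕜) (ha : (algebraMap 𝕜 ℂ) a = jFun τ₀)
    (r : modRing 𝕜 K) :
    0 ≤ (modRep 𝕜 K γ • pointPlace 𝕜 K τ₀ a ha).ord
      (algebraMap (modRing 𝕜 K) (ModField 𝕜 K) r) := by
  rw [mlt3_ord_smul_eq]
  have h1 : (modRep 𝕜 K γ).symm (algebraMap (modRing 𝕜 K) (ModField 𝕜 K) r)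
      = algebraMap (modRing 𝕜 K) (ModField 𝕜 K) (modAct 𝕜 K γ⁻¹ r) := by
    rw [← modRep_algebraMap 𝕜 K, map_inv]
    rfl
  rw [h1]
  apply ord_nonneg_of_mem
  rw [KMod.pointPlace, mem_fracPlace_iff, fracValuation_algebraMap]
  by_cases h0 : modAct 𝕜 K γ⁻¹ r = 0
  · rw [h0, map_zero]
    exact zero_le_one
  · rw [pointValuation_apply 𝕜 K τ₀ h0, ← WithZero.exp_zero, WithZero.exp_le_exp]
    omega

/-- `barPlace` is equivariant for the automorphisms induced by the normaliser -/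
theorem mlt3_barPlace_smul {γ : SL(2, ℤ)} (hγ : Mlt3Norm K γ) (v : Place 𝕜 (ModField 𝕜 K)) :
    barPlace 𝕜 K (modRep 𝕜 K γ • v) = mlt3Aut 𝕜 K hγ • barPlace 𝕜 K v := by
  symm
  apply eq_of_le
  intro x hx
  have h1 := ord_nonneg_of_mem _ hx
  rw [mlt3_ord_smul_eq] at h1
  obtain ⟨e, he, hord⟩ := exists_ord_barPlace 𝕜 K v
  obtain ⟨e', he', hord'⟩ := exists_ord_barPlace 𝕜 K (modRep 𝕜 K γ • v)
  apply mem_of_ord_nonneg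
  have h2 : (0 : ℤ) ≤ (e' : ℤ) * (barPlace 𝕜 K (modRep 𝕜 K γ • v)).ord x := by
    rw [← hord', mlt3_ord_smul_eq]
    have h3 : (modRep 𝕜 K γ).symm ((modIso 𝕜 K x : anField 𝕜 K) : ModField 𝕜 K)
        = ((modIso 𝕜 K ((mlt3Aut 𝕜 K hγ).symm x) : anField 𝕜 K) : ModField 𝕜 K) := by
      rw [AlgEquiv.symm_apply_eq, ← coe_modIso_mlt3Aut 𝕜 K hγ, AlgEquiv.apply_symm_apply]
    rw [h3, hord]
    exact mul_nonneg (by positivity) h1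
  have he'' : (0 : ℤ) < e' := by exact_mod_cast he'
  exact nonneg_of_mul_nonneg_right h2 he''

/-- two places of `ModField` over the same place of `F_K` are conjugate under `Γ₀(K)` -/
theorem mlt3_exists_Gamma0_smul (v v' : Place 𝕜 (ModField 𝕜 K))
    (h : barPlace 𝕜 K v = barPlace 𝕜 K v') :
    ∃ h₀ ∈ Gamma0 K, v' = modRep 𝕜 K h₀ • v := by
  have h1 : restrict (F := gamma0Field 𝕜 K) v = restrict (F := gamma0Field 𝕜 K) v' := by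
    have h2 := congrArg (placeMap (modIsoG 𝕜 K)) h
    rw [barPlace, barPlace, placeMap_placeMap_symm, placeMap_placeMap_symm] at h2
    exact h2
  obtain ⟨g, ⟨h₀, hh₀, rfl⟩, hg⟩ :=
    GaloisAux.exists_mem_smul_eq_of_restrict_eq ((Gamma0 K).map (modRep 𝕜 K)) v v' h1
  exact ⟨h₀, hh₀, hg⟩

end Gen


/-! ### Sign transfer between `ModField` and `F_K` -/

section Sign

variable (𝕜 : Type) [Field 𝕜] [IsAlgClosed 𝕜] [Algebra 𝕜 ℂ] [Algebra ℚ 𝕜] (K : ℕ) [NeZero K]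

theorem mlt3_bar_pos_iff (v : Place 𝕜 (ModField 𝕜 K)) (y : barField 𝕜 K) :
    0 < (barPlace 𝕜 K v).ord y ↔ 0 < v.ord ((modIso 𝕜 K y : anField 𝕜 K) : ModField 𝕜 K) := by
  obtain ⟨e, he, hord⟩ := exists_ord_barPlace 𝕜 K v
  have he' : (0 : ℤ) < e := by exact_mod_cast he
  rw [hord]
  constructor
  · intro h
    exact mul_pos he' h
  · intro h
    exact pos_of_mul_pos_right h he'.le

theorem mlt3_bar_neg_iff (v : Place 𝕜 (ModField 𝕜 K)) (y : barField 𝕜 K) :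
    (barPlace 𝕜 K v).ord y < 0 ↔ v.ord ((modIso 𝕜 K y : anField 𝕜 K) : ModField 𝕜 K) < 0 := by
  obtain ⟨e, he, hord⟩ := exists_ord_barPlace 𝕜 K v
  have he' : (0 : ℤ) < e := by exact_mod_cast he
  rw [hord]
  constructor
  · intro h
    exact mul_neg_of_pos_of_neg he' h
  · intro h
    by_contra h1
    push Not at h1
    have := mul_nonneg he'.le h1
    omega

end Sign

/-! ### The level `K = 9 N''` -/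

section Level

variable (𝕜 : Type) [Field 𝕜] [IsAlgClosed 𝕜] [Algebra 𝕜 ℂ] [Algebra ℚ 𝕜] (N'' : ℕ) [NeZero N'']

theorem mlt3_three_dvd_K : 3 ∣ N'' * 3 * 3 := Dvd.intro_left _ rfl

theorem mlt3_three_dvd_K' : ((3 : ℕ+) : ℕ) ∣ N'' * 3 * 3 := Dvd.intro_left _ rfl

/-- `j` in `F_K` -/
noncomputable def mlt3Jb : barField 𝕜 (N'' * 3 * 3) := jBar 𝕜 (N'' * 3 * 3)

/-- `j₃ = j(q³)` in `F_K` -/
noncomputable def mlt3J3b : barField 𝕜 (N'' * 3 * 3) :=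
  t2wJd 𝕜 (N'' * 3 * 3) 3 (mlt3_three_dvd_K N'')

theorem mlt3_modIso_Jb :
    ((modIso 𝕜 (N'' * 3 * 3) (mlt3Jb 𝕜 N'') : anField 𝕜 (N'' * 3 * 3)) : ModField 𝕜 (N'' * 3 * 3))
      = jL 𝕜 (N'' * 3 * 3) := modIso_jBar 𝕜 _

theorem mlt3_modIso_J3b :
    ((modIso 𝕜 (N'' * 3 * 3) (mlt3J3b 𝕜 N'') : anField 𝕜 (N'' * 3 * 3)) : ModField 𝕜 (N'' * 3 * 3))
      = mlt3J3L 𝕜 (N'' * 3 * 3) (mlt3_three_dvd_K' N'') := by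
  rw [mlt3J3b, t2w_modIso_jd]
  rfl

theorem mlt3_coe_Jb : ((mlt3Jb 𝕜 N'' : barField 𝕜 (N'' * 3 * 3)) : LaurentSeries 𝕜) = jqModC 𝕜 := rfl

theorem mlt3_coe_J3b :
    ((mlt3J3b 𝕜 N'' : barField 𝕜 (N'' * 3 * 3)) : LaurentSeries 𝕜) = qExpand 𝕜 3 (jqModC 𝕜) := rfl

theorem mlt3_Jb_ne_zero : mlt3Jb 𝕜 N'' ≠ 0 := by
  intro h
  have := congrArg (fun x : barField 𝕜 (N'' * 3 * 3) => (x : LaurentSeries 𝕜)) h
  exact jqModC_ne_zero_of_nontrivial 𝕜 this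

theorem mlt3_J3b_ne_zero : mlt3J3b 𝕜 N'' ≠ 0 := by
  intro h
  have h1 := congrArg (fun x : barField 𝕜 (N'' * 3 * 3) => (x : LaurentSeries 𝕜)) h
  have h2 : qExpand 𝕜 3 (jqModC 𝕜) = 0 := h1
  have h3 := S24Lib.order_qExpand 3 (jqModC_ne_zero_of_nontrivial 𝕜)
  rw [h2, HahnSeries.order_zero, S24Lib.order_jqModC] at h3
  omega

/-- `j ≠ j₃³` -/
theorem mlt3_Jb_ne_cube : mlt3Jb 𝕜 N'' - mlt3J3b 𝕜 N'' ^ 3 ≠ 0 := by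
  intro h
  have h0 : mlt3Jb 𝕜 N'' = mlt3J3b 𝕜 N'' ^ 3 := sub_eq_zero.mp h
  have h1 := congrArg (fun x : barField 𝕜 (N'' * 3 * 3) => (x : LaurentSeries 𝕜)) h0
  have h2 : jqModC 𝕜 = qExpand 𝕜 3 (jqModC 𝕜) ^ 3 := h1
  have hne : qExpand 𝕜 3 (jqModC 𝕜) ≠ 0 := by
    intro h4
    have h3 := S24Lib.order_qExpand 3 (jqModC_ne_zero_of_nontrivial 𝕜)
    rw [h4, HahnSeries.order_zero, S24Lib.order_jqModC] at h3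
    omega
  have h3 := congrArg HahnSeries.order h2
  rw [S24Lib.order_jqModC, HahnSeries.order_pow,
    S24Lib.order_qExpand 3 (jqModC_ne_zero_of_nontrivial 𝕜), S24Lib.order_jqModC] at h3
  simp at h3

end Level


section Fixed

variable (𝕜 : Type) [Field 𝕜] [IsAlgClosed 𝕜] [Algebra 𝕜 ℂ] [Algebra ℚ 𝕜] (N'' : ℕ) [NeZero N'']

/-- **the `g̃`-fixed places of `F_K` are the cusps `δ ∞` with `3 ∤ δ₁₀`** -/
theorem mlt3_fixed_place (hcop : Nat.Coprime 3 N'') (r0 : ℕ) (hr0 : r0.Prime) (hr3 : r0 % 3 = 2)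
    (hr0N : r0 ∣ N'') (h3 : 3 ∣ N'' * 3) (Q : Place 𝕜 (barField 𝕜 (N'' * 3 * 3)))
    (hQ : mlt3G 𝕜 (N'' * 3) h3 • Q = Q) :
    ∃ δ : SL(2, ℤ), ¬ (3 : ℤ) ∣ δ 1 0 ∧
      Q = barPlace 𝕜 (N'' * 3 * 3) (modRep 𝕜 (N'' * 3 * 3) δ • inftyPlace 𝕜 (N'' * 3 * 3)) := by
  obtain ⟨v, rfl⟩ := exists_barPlace_eq 𝕜 (N'' * 3 * 3) Q
  have hn := mlt3U_norm (N'' * 3) h3 ((N'' * 3 : ℕ) : ℤ) dvd_rfl
  have h1 : barPlace 𝕜 (N'' * 3 * 3) v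
      = barPlace 𝕜 (N'' * 3 * 3) (modRep 𝕜 (N'' * 3 * 3) (mlt3U ((N'' * 3 : ℕ) : ℤ)) • v) := by
    rw [mlt3_barPlace_smul 𝕜 (N'' * 3 * 3) hn v]
    exact hQ.symm
  obtain ⟨h₀, hh₀, hv⟩ := mlt3_exists_Gamma0_smul 𝕜 (N'' * 3 * 3) v _ h1
  have hle : Gamma0 (N'' * 3 * 3) ≤ Gamma0 (N'' * 3) := Gamma0_le_of_dvd (Dvd.intro 3 rfl)
  have hU : mlt3U ((N'' * 3 : ℕ) : ℤ) ∈ Gamma0 (N'' * 3) :=
    (mlt3U_mem_Gamma0 (N'' * 3) _).mpr dvd_rfl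
  have hU' : mlt3U ((N'' * 3 : ℕ) : ℤ) ∉ Gamma0 (N'' * 3 * 3) := by
    rw [mlt3U_mem_Gamma0]
    rintro ⟨c, hc⟩
    have hN : (0 : ℤ) < ((N'' * 3 : ℕ) : ℤ) := by
      exact_mod_cast Nat.pos_of_ne_zero (NeZero.ne (N'' * 3))
    have h9 : ((N'' * 3 * 3 : ℕ) : ℤ) = ((N'' * 3 : ℕ) : ℤ) * 3 := by push_cast; ring
    rw [h9] at hc
    have : ((N'' * 3 : ℕ) : ℤ) * 1 = ((N'' * 3 : ℕ) : ℤ) * (3 * c) := by linarith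
    have := mul_left_cancel₀ hN.ne' this
    omega
  have hfix : modRep 𝕜 (N'' * 3 * 3) (h₀⁻¹ * mlt3U ((N'' * 3 : ℕ) : ℤ)) • v = v := by
    rw [map_mul, mul_smul, hv, ← mul_smul, ← map_mul, inv_mul_cancel, map_one, one_smul]
  obtain ⟨δ, hδ, hvδ⟩ := mlt3_fixed_is_cusp 𝕜 N'' hcop r0 hr0 hr3 hr0N v
    (h₀⁻¹ * mlt3U ((N'' * 3 : ℕ) : ℤ)) (mul_mem (inv_mem (hle hh₀)) hU)
    (fun hmem => hU' (by
      have : mlt3U ((N'' * 3 : ℕ) : ℤ) = h₀ * (h₀⁻¹ * mlt3U ((N'' * 3 : ℕ) : ℤ)) := by group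
      rw [this]
      exact mul_mem hh₀ hmem)) hfix
  exact ⟨δ, hδ, by rw [hvδ]⟩

end Fixed


/-! ### The functions `G = j₃ / j³` and `H = j / j₃³` -/

theorem mlt3_ord_quot {k F : Type*} [Field k] [Field F] [Algebra k F] (v : Place k F) (a b : F)
    (ha : a ≠ 0) (hb : b ≠ 0) : v.ord (a * (b ^ 3)⁻¹) = v.ord a - 3 * v.ord b := by
  have h3 : v.ord (b ^ 3) = 3 * v.ord b := by
    have := v.ord_zpow b 3
    rwa [zpow_ofNat] at this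
  rw [v.ord_mul ha (inv_ne_zero (pow_ne_zero 3 hb)), v.ord_inv, h3]
  ring

section GH

variable (𝕜 : Type) [Field 𝕜] [IsAlgClosed 𝕜] [Algebra 𝕜 ℂ] [Algebra ℚ 𝕜] (N'' : ℕ) [NeZero N'']

/-- `G = j₃ / j³` -/
noncomputable def mlt3Gb : barField 𝕜 (N'' * 3 * 3) := mlt3J3b 𝕜 N'' * (mlt3Jb 𝕜 N'' ^ 3)⁻¹

/-- `H = j / j₃³` -/
noncomputable def mlt3Hb : barField 𝕜 (N'' * 3 * 3) := mlt3Jb 𝕜 N'' * (mlt3J3b 𝕜 N'' ^ 3)⁻¹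

theorem mlt3_modIso_mul_inv_cube (a b : barField 𝕜 (N'' * 3 * 3)) :
    ((modIso 𝕜 (N'' * 3 * 3) (a * (b ^ 3)⁻¹) : anField 𝕜 (N'' * 3 * 3)) : ModField 𝕜 (N'' * 3 * 3))
      = ((modIso 𝕜 (N'' * 3 * 3) a : anField 𝕜 (N'' * 3 * 3)) : ModField 𝕜 (N'' * 3 * 3))
        * ((((modIso 𝕜 (N'' * 3 * 3) b : anField 𝕜 (N'' * 3 * 3)) : ModField 𝕜 (N'' * 3 * 3))) ^ 3)⁻¹ := by
  rw [map_mul, map_inv₀, map_pow]
  rfl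

theorem mlt3_modIso_Gb :
    ((modIso 𝕜 (N'' * 3 * 3) (mlt3Gb 𝕜 N'') : anField 𝕜 (N'' * 3 * 3)) : ModField 𝕜 (N'' * 3 * 3))
      = mlt3J3L 𝕜 (N'' * 3 * 3) (mlt3_three_dvd_K' N'') * (jL 𝕜 (N'' * 3 * 3) ^ 3)⁻¹ := by
  rw [mlt3Gb, mlt3_modIso_mul_inv_cube, mlt3_modIso_Jb, mlt3_modIso_J3b]

theorem mlt3_modIso_Hb :
    ((modIso 𝕜 (N'' * 3 * 3) (mlt3Hb 𝕜 N'') : anField 𝕜 (N'' * 3 * 3)) : ModField 𝕜 (N'' * 3 * 3))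
      = jL 𝕜 (N'' * 3 * 3) * (mlt3J3L 𝕜 (N'' * 3 * 3) (mlt3_three_dvd_K' N'') ^ 3)⁻¹ := by
  rw [mlt3Hb, mlt3_modIso_mul_inv_cube, mlt3_modIso_Jb, mlt3_modIso_J3b]

theorem mlt3_Hb_sub_one :
    mlt3Hb 𝕜 N'' - 1 = (mlt3Jb 𝕜 N'' - mlt3J3b 𝕜 N'' ^ 3) * (mlt3J3b 𝕜 N'' ^ 3)⁻¹ := by
  have h := pow_ne_zero 3 (mlt3_J3b_ne_zero 𝕜 N'')
  rw [mlt3Hb, sub_mul, mul_inv_cancel₀ h]

theorem mlt3_modIso_Hb_sub_one :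
    ((modIso 𝕜 (N'' * 3 * 3) (mlt3Hb 𝕜 N'' - 1) : anField 𝕜 (N'' * 3 * 3)) :
        ModField 𝕜 (N'' * 3 * 3))
      = (jL 𝕜 (N'' * 3 * 3) - mlt3J3L 𝕜 (N'' * 3 * 3) (mlt3_three_dvd_K' N'') ^ 3)
        * (mlt3J3L 𝕜 (N'' * 3 * 3) (mlt3_three_dvd_K' N'') ^ 3)⁻¹ := by
  rw [mlt3_Hb_sub_one, mlt3_modIso_mul_inv_cube, mlt3_modIso_J3b, map_sub, map_pow]
  congr 1
  show ((modIso 𝕜 (N'' * 3 * 3) (mlt3Jb 𝕜 N'') : anField 𝕜 (N'' * 3 * 3)) : ModField 𝕜 (N'' * 3 * 3))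
    - ((modIso 𝕜 (N'' * 3 * 3) (mlt3J3b 𝕜 N'') : anField 𝕜 (N'' * 3 * 3)) :
        ModField 𝕜 (N'' * 3 * 3)) ^ 3 = _
  rw [mlt3_modIso_Jb, mlt3_modIso_J3b]

end GH


section Ords

variable (𝕜 : Type) [Field 𝕜] [IsAlgClosed 𝕜] [Algebra 𝕜 ℂ] [Algebra ℚ 𝕜] (N'' : ℕ) [NeZero N'']

theorem mlt3_jL_cube_ne :
    jL 𝕜 (N'' * 3 * 3) - mlt3J3L 𝕜 (N'' * 3 * 3) (mlt3_three_dvd_K' N'') ^ 3 ≠ 0 := by
  intro h
  apply mlt3_Jb_ne_cube 𝕜 N''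
  apply mlt3_modIso_injective 𝕜 (N'' * 3 * 3)
  rw [map_sub, map_pow, map_zero]
  show ((modIso 𝕜 (N'' * 3 * 3) (mlt3Jb 𝕜 N'') : anField 𝕜 (N'' * 3 * 3)) : ModField 𝕜 (N'' * 3 * 3))
    - ((modIso 𝕜 (N'' * 3 * 3) (mlt3J3b 𝕜 N'') : anField 𝕜 (N'' * 3 * 3)) :
        ModField 𝕜 (N'' * 3 * 3)) ^ 3 = 0
  rw [mlt3_modIso_Jb, mlt3_modIso_J3b]
  exact h

/-- `j` has a pole at every cusp -/
theorem mlt3_cusp_Jb (δ : SL(2, ℤ)) :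
    (barPlace 𝕜 (N'' * 3 * 3) (modRep 𝕜 (N'' * 3 * 3) δ • inftyPlace 𝕜 (N'' * 3 * 3))).ord
      (mlt3Jb 𝕜 N'') < 0 := by
  rw [mlt3_bar_neg_iff, mlt3_modIso_Jb, mlt3_cusp_ord_jL]
  have : (0 : ℤ) < ((N'' * 3 * 3 : ℕ) : ℤ) := by
    exact_mod_cast Nat.pos_of_ne_zero (NeZero.ne (N'' * 3 * 3))
  omega

/-- `G` vanishes at the cusps with `3 ∤ δ₁₀` -/
theorem mlt3_cusp_Gb (δ : SL(2, ℤ)) (h3 : ¬ (3 : ℤ) ∣ δ 1 0) :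
    0 < (barPlace 𝕜 (N'' * 3 * 3) (modRep 𝕜 (N'' * 3 * 3) δ • inftyPlace 𝕜 (N'' * 3 * 3))).ord
      (mlt3Gb 𝕜 N'') := by
  rw [mlt3_bar_pos_iff, mlt3_modIso_Gb,
    mlt3_ord_quot _ _ _ (mlt3_j3L_ne_zero 𝕜 _ _) (jL_ne_zero 𝕜 _), mlt3_cusp_ord_jL]
  obtain ⟨e, he, -, h3e⟩ := mlt3_cusp_ord_j3L 𝕜 (N'' * 3 * 3) (mlt3_three_dvd_K' N'') δ
  rw [he]
  have h1 := h3e h3
  have : (0 : ℤ) < ((N'' * 3 * 3 : ℕ) : ℤ) := by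
    exact_mod_cast Nat.pos_of_ne_zero (NeZero.ne (N'' * 3 * 3))
  have h2 : ((e * 3 : ℕ) : ℤ) = ((N'' * 3 * 3 : ℕ) : ℤ) := by rw [h1]
  push_cast at h2 this ⊢
  omega

/-- `H - 1` vanishes at the cusps with `3 ∤ δ₁₀` -/
theorem mlt3_cusp_Hb (δ : SL(2, ℤ)) (h3 : ¬ (3 : ℤ) ∣ δ 1 0) :
    0 < (barPlace 𝕜 (N'' * 3 * 3) (modRep 𝕜 (N'' * 3 * 3) δ • inftyPlace 𝕜 (N'' * 3 * 3))).ord
      (mlt3Hb 𝕜 N'' - 1) := by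
  rw [mlt3_bar_pos_iff, mlt3_modIso_Hb_sub_one,
    mlt3_ord_quot _ _ _ (mlt3_jL_cube_ne 𝕜 N'') (mlt3_j3L_ne_zero 𝕜 _ _)]
  have h1 := mlt3_cusp_ord_sub 𝕜 (N'' * 3 * 3) (mlt3_three_dvd_K' N'') δ h3 (mlt3_jL_cube_ne 𝕜 N'')
  obtain ⟨e, he, -, h3e⟩ := mlt3_cusp_ord_j3L 𝕜 (N'' * 3 * 3) (mlt3_three_dvd_K' N'') δ
  rw [he]
  have h2 : ((e * 3 : ℕ) : ℤ) = ((N'' * 3 * 3 : ℕ) : ℤ) := by rw [h3e h3]
  push_cast at h2 h1 ⊢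
  omega

/-- the orders of `j`, `j₃` at an arbitrary place of `ModField`: either a cusp (`ord j = -K`,
`ord j₃ = -e`, `e ∈ {3K, K/3}`) or both are regular -/
theorem mlt3_ord_cases (v : Place 𝕜 (ModField 𝕜 (N'' * 3 * 3))) :
    (∃ e : ℕ, v.ord (jL 𝕜 (N'' * 3 * 3)) = -((N'' * 3 * 3 : ℕ) : ℤ) ∧
      v.ord (mlt3J3L 𝕜 (N'' * 3 * 3) (mlt3_three_dvd_K' N'')) = -(e : ℤ) ∧
      (e = 3 * (N'' * 3 * 3) ∨ e * 3 = N'' * 3 * 3)) ∨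
    (0 ≤ v.ord (jL 𝕜 (N'' * 3 * 3)) ∧
      0 ≤ v.ord (mlt3J3L 𝕜 (N'' * 3 * 3) (mlt3_three_dvd_K' N''))) := by
  rcases place_cases 𝕜 (N'' * 3 * 3) v with ⟨δ, rfl⟩ | ⟨a, τ₀, ha, δ, -, -, rfl⟩
  · left
    obtain ⟨e, he, hcases, -⟩ := mlt3_cusp_ord_j3L 𝕜 (N'' * 3 * 3) (mlt3_three_dvd_K' N'') δ
    exact ⟨e, mlt3_cusp_ord_jL 𝕜 _ δ, he, hcases⟩
  · right
    exact ⟨mlt3_ring_ord_nonneg 𝕜 _ δ τ₀ a ha _, mlt3_ring_ord_nonneg 𝕜 _ δ τ₀ a ha _⟩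

/-- a pole of `G` is a zero of `j` -/
theorem mlt3_Gb_pole (P : Place 𝕜 (barField 𝕜 (N'' * 3 * 3))) (hP : P.ord (mlt3Gb 𝕜 N'') < 0) :
    0 < P.ord (mlt3Jb 𝕜 N'') := by
  obtain ⟨v, rfl⟩ := exists_barPlace_eq 𝕜 (N'' * 3 * 3) P
  rw [mlt3_bar_neg_iff, mlt3_modIso_Gb,
    mlt3_ord_quot _ _ _ (mlt3_j3L_ne_zero 𝕜 _ _) (jL_ne_zero 𝕜 _)] at hP
  rw [mlt3_bar_pos_iff, mlt3_modIso_Jb]
  rcases mlt3_ord_cases 𝕜 N'' v with ⟨e, h1, h2, h3⟩ | ⟨h1, h2⟩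
  · exfalso
    rw [h1, h2] at hP
    rcases h3 with h3 | h3
    · have : ((e : ℕ) : ℤ) = ((3 * (N'' * 3 * 3) : ℕ) : ℤ) := by rw [h3]
      push_cast at this hP
      omega
    · have : ((e * 3 : ℕ) : ℤ) = ((N'' * 3 * 3 : ℕ) : ℤ) := by rw [h3]
      push_cast at this hP
      omega
  · omega

/-- a pole of `H - 1` is a zero of `j₃` -/
theorem mlt3_Hb_pole (P : Place 𝕜 (barField 𝕜 (N'' * 3 * 3)))
    (hP : P.ord (mlt3Hb 𝕜 N'' - 1) < 0) : 0 < P.ord (mlt3J3b 𝕜 N'') := by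
  have hP' : P.ord (mlt3Hb 𝕜 N'') < 0 := by
    by_contra h
    push Not at h
    have h1 := mem_of_ord_nonneg P h
    have h2 : mlt3Hb 𝕜 N'' - 1 ∈ P.toValuationSubring :=
      sub_mem h1 (one_mem _)
    have := ord_nonneg_of_mem P h2
    omega
  obtain ⟨v, rfl⟩ := exists_barPlace_eq 𝕜 (N'' * 3 * 3) P
  rw [mlt3_bar_neg_iff, mlt3_modIso_Hb,
    mlt3_ord_quot _ _ _ (jL_ne_zero 𝕜 _) (mlt3_j3L_ne_zero 𝕜 _ _)] at hP'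
  rw [mlt3_bar_pos_iff, mlt3_modIso_J3b]
  rcases mlt3_ord_cases 𝕜 N'' v with ⟨e, h1, h2, h3⟩ | ⟨h1, h2⟩
  · exfalso
    rw [h1, h2] at hP'
    rcases h3 with h3 | h3
    · have : ((e : ℕ) : ℤ) = ((3 * (N'' * 3 * 3) : ℕ) : ℤ) := by rw [h3]
      push_cast at this hP'
      have : (0 : ℤ) < ((N'' : ℕ) : ℤ) := by exact_mod_cast Nat.pos_of_ne_zero (NeZero.ne N'')
      omega
    · have : ((e * 3 : ℕ) : ℤ) = ((N'' * 3 * 3 : ℕ) : ℤ) := by rw [h3]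
      push_cast at this hP'
      omega
  · omega

end Ords

end Fermat.Agent.MLT
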